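/-
S13 package FR (Frey local data), helper86.

Arithmetic of the Weierstrass coefficients of the Frey curve
`y² + xy = x³ + (b^p - 1 - a^p)/4 · x² - a^p b^p/16 · x` at the prime `2` and at odd primes
(in particular at `p`), in the shapes the local lemmas of S13 consume:
for a valuation subring `A` of a field `L ⊇ ℚ`,

* all coefficients are integers, hence lie in every `A` (`frey_a₂_mem`, `frey_a₄_mem`, ...);
* at `2` (`A.valuation 2 < 1`): `a₄` is a nonunit, `b₂` is a unit, and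
  `a₄ = u · 2^(p·k - 4)` with `u` odd, `k = ord₂ b ≥ 1`;
* at an odd prime `q` (`A.valuation q < 1`, `q ≠ 2`, `q = p` allowed):
  - `q ∤ abc`: `Δ` is a unit;
  - `q ∣ ab`: `b₂` is a unit, `a₄ = (-1/16)·(ab)^p` is a nonunit;
  - `q ∣ c`: the same for the translated curve `freyTranslate P • freyCurve`.
-/
import Mathlib
import Fermat.Prelude.Def_FLTPrelim_Ramification
import Fermat.Agent.S05.Frey

set_option autoImplicit false

namespace Fermat.Agent.S13.H86

open WeierstrassCurve Fermat.Agent.S05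

/-! ### Integer facts -/

section IntFacts

variable (P : FreyPackage)

lemma two_dvd_b : (2 : ℤ) ∣ P.b := (ZMod.intCast_zmod_eq_zero_iff_dvd P.b 2).1 P.hb2

lemma a_modEq : P.a ≡ -1 [ZMOD 4] := by
  have h : ((P.a : ℤ) : ZMod 4) = ((-1 : ℤ) : ZMod 4) := by
    rw [P.ha4]; decide
  exact (ZMod.intCast_eq_intCast_iff P.a (-1) 4).mp h

lemma not_two_dvd_a : ¬ (2 : ℤ) ∣ P.a := by
  have h := a_modEq P
  intro h2
  have h4 : P.a % 4 = 3 := by
    have := h
    unfold Int.ModEq at this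
    omega
  omega

lemma a_pow_modEq : P.a ^ P.p ≡ -1 [ZMOD 4] := by
  have h := (a_modEq P).pow P.p
  rwa [P.hp_odd.neg_one_pow] at h

lemma not_two_dvd_a_pow : ¬ (2 : ℤ) ∣ P.a ^ P.p := fun h =>
  not_two_dvd_a P (Int.prime_two.dvd_of_dvd_pow h)

lemma two_pow_dvd_b_pow : (2 : ℤ) ^ P.p ∣ P.b ^ P.p := pow_dvd_pow_of_dvd (two_dvd_b P) P.p

lemma thirtytwo_dvd_b_pow : (32 : ℤ) ∣ P.b ^ P.p := by
  have h : (2 : ℤ) ^ 5 ∣ (2 : ℤ) ^ P.p := pow_dvd_pow 2 P.hp5
  exact (show (32 : ℤ) = 2 ^ 5 by norm_num) ▸ h.trans (two_pow_dvd_b_pow P)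

lemma four_dvd_a₂_num : (4 : ℤ) ∣ P.b ^ P.p - 1 - P.a ^ P.p := by
  have h1 : (4 : ℤ) ∣ P.b ^ P.p := (show (4 : ℤ) ∣ 32 by norm_num).trans (thirtytwo_dvd_b_pow P)
  have h2 : (4 : ℤ) ∣ -1 - P.a ^ P.p := (a_pow_modEq P).dvd
  have h3 := dvd_add h1 h2
  have e : P.b ^ P.p + (-1 - P.a ^ P.p) = P.b ^ P.p - 1 - P.a ^ P.p := by ring
  rwa [e] at h3

lemma not_two_dvd_b₂_num : ¬ (2 : ℤ) ∣ P.b ^ P.p - P.a ^ P.p := by
  intro h
  have h1 : (2 : ℤ) ∣ P.b ^ P.p := dvd_pow (two_dvd_b P) P.hp0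
  have h2 := dvd_sub h1 h
  rw [sub_sub_cancel] at h2
  exact not_two_dvd_a_pow P h2

lemma not_two_dvd_c : ¬ (2 : ℤ) ∣ P.c := by
  intro h
  have h1 : (2 : ℤ) ∣ P.c ^ P.p := dvd_pow h P.hp0
  rw [← P.hFLT] at h1
  have h2 : (2 : ℤ) ∣ P.b ^ P.p := dvd_pow (two_dvd_b P) P.hp0
  have h3 := dvd_sub h1 h2
  rw [add_sub_cancel_right] at h3
  exact not_two_dvd_a_pow P h3

/-- `a₂` of the Frey curve is an integer. -/
lemma exists_frey_a₂ : ∃ n : ℤ, P.freyCurve.a₂ = (n : ℚ) := by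
  obtain ⟨n, hn⟩ := four_dvd_a₂_num P
  refine ⟨n, ?_⟩
  rw [frey_a₂, hn]
  push_cast
  ring

/-- `a₄` of the Frey curve is an even integer. -/
lemma exists_frey_a₄ : ∃ n : ℤ, (2 : ℤ) ∣ n ∧ P.freyCurve.a₄ = (n : ℚ) := by
  obtain ⟨m, hm⟩ := thirtytwo_dvd_b_pow P
  refine ⟨-(P.a ^ P.p) * (2 * m), Dvd.dvd.mul_left (dvd_mul_right 2 m) _, ?_⟩
  have hb : (P.b : ℚ) ^ P.p = 32 * (m : ℚ) := by exact_mod_cast hm
  rw [frey_a₄]
  push_cast
  rw [mul_pow, hb]
  ring

/-- The exact power of `2` in `a₄`: `a₄ = u · 2^(p·k - 4)` with `u` odd and `k = ord₂ b ≥ 1`. -/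
lemma exists_frey_a₄_two_pow : ∃ (k : ℕ) (u : ℤ), 1 ≤ k ∧ 4 < P.p * k ∧ ¬ (2 : ℤ) ∣ u ∧
    P.freyCurve.a₄ = (u : ℚ) * (2 : ℚ) ^ (P.p * k - 4) := by
  have hfin : FiniteMultiplicity (2 : ℤ) P.b :=
    Int.finiteMultiplicity_iff.mpr ⟨by decide, P.hb0⟩
  obtain ⟨b', hb, hb'⟩ := hfin.exists_eq_pow_mul_and_not_dvd
  generalize multiplicity (2 : ℤ) P.b = k at hb
  have hk : 1 ≤ k := by
    rcases Nat.eq_zero_or_pos k with h0 | h0
    · exfalso
      rw [h0, pow_zero, one_mul] at hb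
      exact hb' (hb ▸ two_dvd_b P)
    · exact h0
  have hpk : 4 < P.p * k := by
    have := P.hp5
    nlinarith
  refine ⟨k, -(P.a ^ P.p * b' ^ P.p), hk, hpk, ?_, ?_⟩
  · rw [Int.dvd_neg]
    intro h
    rcases Int.prime_two.dvd_or_dvd h with h | h
    · exact not_two_dvd_a_pow P h
    · exact hb' (Int.prime_two.dvd_of_dvd_pow h)
  · have hbq : (P.b : ℚ) = (2 : ℚ) ^ k * (b' : ℚ) := by exact_mod_cast hb
    have h16 : (2 : ℚ) ^ (P.p * k) = 2 ^ (P.p * k - 4) * 16 := by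
      rw [show (16 : ℚ) = 2 ^ 4 by norm_num, ← pow_add, Nat.sub_add_cancel hpk.le]
    rw [frey_a₄]
    push_cast
    rw [mul_pow, hbq, mul_pow, ← pow_mul, mul_comm k P.p, h16]
    ring

lemma abc_ne_zero : (((P.a * P.b * P.c) ^ P.p : ℤ) : ℚ) ≠ 0 := by
  exact_mod_cast pow_ne_zero _ P.habc0

lemma frey_Δ_ne_zero : P.freyCurve.Δ ≠ 0 := by
  rw [frey_Δ]
  exact div_ne_zero (pow_ne_zero _ (abc_ne_zero P)) (by norm_num)

lemma freyT_Δ : (freyTranslate P • P.freyCurve).Δ = P.freyCurve.Δ := by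
  rw [variableChange_Δ]
  simp [freyTranslate]

lemma freyT_Δ_ne_zero : (freyTranslate P • P.freyCurve).Δ ≠ 0 := by
  rw [freyT_Δ]; exact frey_Δ_ne_zero P

end IntFacts

/-! ### Valuation facts -/

section Val

variable {L : Type*} [Field L] [Algebra ℚ L] (A : ValuationSubring L) (P : FreyPackage)

lemma algebraMap_intCast_mem (n : ℤ) : algebraMap ℚ L (n : ℚ) ∈ A := by
  rw [map_intCast]; exact intCast_mem A n

/-- `a₁ = 1` lies in every valuation subring. -/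
theorem frey_a₁_mem : algebraMap ℚ L P.freyCurve.a₁ ∈ A := by
  rw [frey_a₁, map_one]; exact A.one_mem

theorem frey_a₃_mem : algebraMap ℚ L P.freyCurve.a₃ ∈ A := by
  rw [frey_a₃, _root_.map_zero]; exact A.zero_mem

theorem frey_a₆_mem : algebraMap ℚ L P.freyCurve.a₆ ∈ A := by
  rw [frey_a₆, _root_.map_zero]; exact A.zero_mem

/-- `a₂` is an integer, so it lies in every valuation subring (also above `2`). -/
theorem frey_a₂_mem : algebraMap ℚ L P.freyCurve.a₂ ∈ A := by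
  obtain ⟨n, hn⟩ := exists_frey_a₂ P
  rw [hn]; exact algebraMap_intCast_mem A n

/-- `a₄` is an integer, so it lies in every valuation subring (also above `2`). -/
theorem frey_a₄_mem : algebraMap ℚ L P.freyCurve.a₄ ∈ A := by
  obtain ⟨n, -, hn⟩ := exists_frey_a₄ P
  rw [hn]; exact algebraMap_intCast_mem A n

theorem frey_b₂_mem : algebraMap ℚ L P.freyCurve.b₂ ∈ A := by
  rw [frey_b₂]; exact algebraMap_intCast_mem A _

theorem frey_Δ_map_ne_zero : algebraMap ℚ L P.freyCurve.Δ ≠ 0 := by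
  rw [Ne, map_eq_zero]; exact frey_Δ_ne_zero P

/-! #### At the prime `2` -/

/-- Above `2`, `a₄` is a nonunit. -/
theorem frey_a₄_val_lt_one_two (h2 : A.valuation (2 : L) < 1) :
    A.valuation (algebraMap ℚ L P.freyCurve.a₄) < 1 := by
  obtain ⟨n, hn2, hn⟩ := exists_frey_a₄ P
  rw [hn, map_intCast]
  exact val_intCast_lt_one A (q := 2) (by simpa using h2) (by exact_mod_cast hn2)

theorem frey_a₄_mem_nonunits_two (h2 : A.valuation (2 : L) < 1) :
    algebraMap ℚ L P.freyCurve.a₄ ∈ A.nonunits :=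
  A.mem_nonunits_iff.mpr (frey_a₄_val_lt_one_two A P h2)

/-- Above `2`, `b₂ = b^p - a^p` is a unit. -/
theorem frey_b₂_val_eq_one_two (h2 : A.valuation (2 : L) < 1) :
    A.valuation (algebraMap ℚ L P.freyCurve.b₂) = 1 := by
  rw [frey_b₂, map_intCast]
  exact val_intCast_eq_one A Nat.prime_two (by simpa using h2)
    (by exact_mod_cast not_two_dvd_b₂_num P)

/-- Above `2`: the exact valuation of `a₄` is `v(2)^(p·k - 4)`, `k = ord₂ b ≥ 1`. -/
theorem frey_a₄_val_two (h2 : A.valuation (2 : L) < 1) : ∃ k : ℕ, 1 ≤ k ∧ 4 < P.p * k ∧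
    A.valuation (algebraMap ℚ L P.freyCurve.a₄) = A.valuation (2 : L) ^ (P.p * k - 4) := by
  obtain ⟨k, u, hk, hpk, hu, h⟩ := exists_frey_a₄_two_pow P
  refine ⟨k, hk, hpk, ?_⟩
  have hu1 : A.valuation (u : L) = 1 :=
    val_intCast_eq_one A Nat.prime_two (by simpa using h2) (by exact_mod_cast hu)
  rw [h, map_mul, map_pow, map_intCast, map_ofNat, map_mul, hu1, one_mul, map_pow]

/-! #### At an odd prime `q` (`q = p` allowed) -/

section Odd

variable {q : ℕ} (hq : q.Prime) (hq2 : q ≠ 2) (hqA : A.valuation (q : L) < 1)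
include hq hq2 hqA

omit [Algebra ℚ L] in
theorem val_two_eq_one : A.valuation (2 : L) = 1 := by
  have := val_natCast_eq_one A hq hqA (n := 2)
    (by rw [Nat.prime_dvd_prime_iff_eq hq Nat.prime_two]; exact hq2)
  simpa using this

theorem val_algebraMap_ofNat_four : A.valuation (algebraMap ℚ L 4) = 1 := by
  rw [map_ofNat, show (4 : L) = 2 * 2 by norm_num, map_mul, val_two_eq_one A hq hq2 hqA, mul_one]

theorem val_algebraMap_ofNat_sixteen : A.valuation (algebraMap ℚ L 16) = 1 := by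
  rw [map_ofNat, show (16 : L) = 2 ^ 4 by norm_num, map_pow, val_two_eq_one A hq hq2 hqA, one_pow]

theorem val_algebraMap_ofNat_256 : A.valuation (algebraMap ℚ L 256) = 1 := by
  rw [map_ofNat, show (256 : L) = 2 ^ 8 by norm_num, map_pow, val_two_eq_one A hq hq2 hqA, one_pow]

/-- Good reduction: if `q ∤ abc` then `Δ` is a unit. -/
theorem frey_Δ_val_eq_one (h : ¬ (q : ℤ) ∣ P.a * P.b * P.c) :
    A.valuation (algebraMap ℚ L P.freyCurve.Δ) = 1 := by
  rw [frey_Δ, map_div₀, map_div₀, val_algebraMap_ofNat_256 A hq hq2 hqA, div_one, map_pow,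
    map_intCast]
  have : A.valuation (((P.a * P.b * P.c) ^ P.p : ℤ) : L) = 1 := by
    refine val_intCast_eq_one A hq hqA fun hdvd => ?_
    exact h ((dvd_pow_p_iff P hq _).mp hdvd)
  rw [map_pow, this, one_pow]

omit hq2 in
/-- If `q ∣ ab` then `b₂ = b^p - a^p` is a unit. -/
theorem frey_b₂_val_eq_one (h : (q : ℤ) ∣ P.a * P.b) :
    A.valuation (algebraMap ℚ L P.freyCurve.b₂) = 1 := by
  rw [frey_b₂, map_intCast]
  refine val_intCast_eq_one A hq hqA fun hdvd => ?_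
  rcases (Nat.prime_iff_prime_int.mp hq).dvd_or_dvd h with ha | hb
  · have hb : (q : ℤ) ∣ P.b ^ P.p := by
      have := dvd_add hdvd (dvd_pow ha P.hp0)
      simpa using this
    exact not_dvd_ab P hq ha ((dvd_pow_p_iff P hq _).mp hb)
  · have ha : (q : ℤ) ∣ P.a ^ P.p := by
      have := dvd_sub (dvd_pow hb P.hp0) hdvd
      simpa using this
    exact not_dvd_ab P hq ((dvd_pow_p_iff P hq _).mp ha) hb

theorem val_neg_one_div_sixteen : A.valuation (algebraMap ℚ L (-1 / 16)) = 1 := by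
  rw [map_div₀, map_div₀, val_algebraMap_ofNat_sixteen A hq hq2 hqA, div_one, map_neg, map_one,
    Valuation.map_neg, map_one]

theorem val_one_div_sixteen : A.valuation (algebraMap ℚ L (1 / 16)) = 1 := by
  rw [map_div₀, map_div₀, val_algebraMap_ofNat_sixteen A hq hq2 hqA, div_one, map_one, map_one]

omit hq hq2 in
/-- If `q ∣ ab` then `r := ab` is a nonunit (and `a₄ = (-1/16)·r^p`, `frey_a₄`). -/
theorem val_ab_lt_one (h : (q : ℤ) ∣ P.a * P.b) :
    A.valuation (algebraMap ℚ L ((P.a * P.b : ℤ) : ℚ)) < 1 := by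
  rw [map_intCast]
  exact val_intCast_lt_one A hqA h

omit hq hq2 hqA in
theorem ab_cast_ne_zero : ((P.a * P.b : ℤ) : ℚ) ≠ 0 := by
  exact_mod_cast mul_ne_zero P.ha0 P.hb0

omit hq hq2 hqA in
theorem ac_cast_ne_zero : ((P.a * P.c : ℤ) : ℚ) ≠ 0 := by
  exact_mod_cast mul_ne_zero P.ha0 P.hc0

/-- If `q ∣ ab` then `a₄` is a nonunit. -/
theorem frey_a₄_val_lt_one (h : (q : ℤ) ∣ P.a * P.b) :
    A.valuation (algebraMap ℚ L P.freyCurve.a₄) < 1 := by
  rw [frey_a₄, map_mul, map_mul, val_neg_one_div_sixteen A hq hq2 hqA, one_mul, map_pow, map_pow]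
  exact pow_lt_one' (val_ab_lt_one A P hqA h) P.hp0

/-! The translated curve (node at the origin when `q ∣ c`). -/

omit hq hq2 hqA in
theorem freyT_a₁_mem : algebraMap ℚ L (freyTranslate P • P.freyCurve).a₁ ∈ A := by
  rw [freyT_a₁, map_one]; exact A.one_mem

theorem freyT_a₂_mem : algebraMap ℚ L (freyTranslate P • P.freyCurve).a₂ ∈ A := by
  rw [freyT_a₂, ← A.valuation_le_one_iff, map_div₀, map_div₀,
    val_algebraMap_ofNat_four A hq hq2 hqA, div_one, map_intCast]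
  exact val_intCast_le_one A _

omit hq hq2 hqA in
theorem freyT_a₃_mem : algebraMap ℚ L (freyTranslate P • P.freyCurve).a₃ ∈ A := by
  rw [freyT_a₃, _root_.map_zero]; exact A.zero_mem

omit hq hq2 hqA in
theorem freyT_a₆_mem : algebraMap ℚ L (freyTranslate P • P.freyCurve).a₆ ∈ A := by
  rw [freyT_a₆, _root_.map_zero]; exact A.zero_mem

theorem freyT_a₄_mem : algebraMap ℚ L (freyTranslate P • P.freyCurve).a₄ ∈ A := by
  rw [freyT_a₄, ← A.valuation_le_one_iff, map_mul, map_mul, val_one_div_sixteen A hq hq2 hqA,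
    one_mul, map_pow, map_pow, map_intCast]
  exact pow_le_one' (val_intCast_le_one A _) _

omit hq2 in
/-- If `q ∣ c` then `b₂' = b^p + 2a^p` of the translated curve is a unit. -/
theorem freyT_b₂_val_eq_one (h : (q : ℤ) ∣ P.c) :
    A.valuation (algebraMap ℚ L (freyTranslate P • P.freyCurve).b₂) = 1 := by
  rw [freyT_b₂, map_intCast]
  refine val_intCast_eq_one A hq hqA fun hdvd => ?_
  have hcp : (q : ℤ) ∣ P.a ^ P.p + P.b ^ P.p := by
    rw [P.hFLT]; exact dvd_pow h P.hp0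
  have ha : (q : ℤ) ∣ P.a ^ P.p := by
    have := dvd_sub hdvd hcp
    have e : P.b ^ P.p + 2 * P.a ^ P.p - (P.a ^ P.p + P.b ^ P.p) = P.a ^ P.p := by ring
    rwa [e] at this
  exact not_dvd_ac P hq ((dvd_pow_p_iff P hq _).mp ha) h

omit hq hq2 in
/-- If `q ∣ c` then `r := ac` is a nonunit (and `a₄' = (1/16)·r^p`, `freyT_a₄`). -/
theorem val_ac_lt_one (h : (q : ℤ) ∣ P.c) :
    A.valuation (algebraMap ℚ L ((P.a * P.c : ℤ) : ℚ)) < 1 := by
  rw [map_intCast]
  exact val_intCast_lt_one A hqA (Dvd.dvd.mul_left h _)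

/-- If `q ∣ c` then `a₄'` of the translated curve is a nonunit. -/
theorem freyT_a₄_val_lt_one (h : (q : ℤ) ∣ P.c) :
    A.valuation (algebraMap ℚ L (freyTranslate P • P.freyCurve).a₄) < 1 := by
  rw [freyT_a₄, map_mul, map_mul, val_one_div_sixteen A hq hq2 hqA, one_mul, map_pow, map_pow]
  exact pow_lt_one' (val_ac_lt_one A P hqA h) P.hp0

end Odd

end Val

end Fermat.Agent.S13.H86
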