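/-
S13 package FR (Frey local data), helper86: the bundled local hypotheses of the S13 skeleton
(`LocalHyp`), for the Frey curve at `2` and at `p`, as conjunctions of the structure fields
(so that the statements do not depend on where the structure `LocalHyp` is declared), for an
arbitrary field `L ⊇ ℚ` and valuation subring `A` of `L`.

`LocalFields W₀ A` is, field by field, the skeleton's `LocalHyp W₀ A`.
-/
import Fermat.Agent.S13.H86.FreyLocal

set_option autoImplicit false

namespace Fermat.Agent.S13.H86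

open WeierstrassCurve Fermat.Agent.S05

variable {L : Type*} [Field L] [Algebra ℚ L]

/-- The fields of the skeleton structure `LocalHyp W₀ A`, as a conjunction: integral
coefficients, and either good reduction or the multiplicative normal form. -/
def LocalFields (W₀ : Affine ℚ) (A : ValuationSubring L) : Prop :=
  algebraMap ℚ L W₀.a₁ ∈ A ∧ algebraMap ℚ L W₀.a₂ ∈ A ∧ algebraMap ℚ L W₀.a₃ ∈ A ∧
  algebraMap ℚ L W₀.a₄ ∈ A ∧ algebraMap ℚ L W₀.a₆ ∈ A ∧
  (A.valuation (algebraMap ℚ L W₀.Δ) = 1 ∨
    (W₀.a₃ = 0 ∧ W₀.a₆ = 0 ∧ algebraMap ℚ L W₀.a₄ ∈ A.nonunits ∧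
      algebraMap ℚ L W₀.b₂ ∉ A.nonunits))

/-- FR1 (fields): at `2` the Frey curve is in multiplicative normal form. -/
theorem frey_localFields_two (P : FreyPackage) (A : ValuationSubring L)
    (hA : A.LiesOverPrime 2) : LocalFields P.freyCurve A := by
  have h2 : A.valuation (2 : L) < 1 := by
    have := A.mem_nonunits_iff.mp hA
    simpa using this
  refine ⟨frey_a₁_mem A P, frey_a₂_mem A P, frey_a₃_mem A P, frey_a₄_mem A P, frey_a₆_mem A P,
    Or.inr ⟨frey_a₃ P, frey_a₆ P, frey_a₄_mem_nonunits_two A P h2, ?_⟩⟩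
  rw [A.mem_nonunits_iff, frey_b₂_val_eq_one_two A P h2]
  exact lt_irrefl _

/-- FR2 (fields), general odd prime `q` (`q = p` allowed): either the Frey curve or its
translate satisfies the local hypotheses (`q ∤ abc`: good; `q ∣ ab`: multiplicative;
`q ∣ c`: translate, multiplicative). -/
theorem frey_localFields_odd (P : FreyPackage) (A : ValuationSubring L) {q : ℕ} (hq : q.Prime)
    (hq2 : q ≠ 2) (hA : A.LiesOverPrime q) :
    LocalFields P.freyCurve A ∨ LocalFields (freyTranslate P • P.freyCurve) A := by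
  have hqA : A.valuation (q : L) < 1 := A.mem_nonunits_iff.mp hA
  by_cases hab : (q : ℤ) ∣ P.a * P.b
  · -- multiplicative, node at the origin
    left
    refine ⟨frey_a₁_mem A P, frey_a₂_mem A P, frey_a₃_mem A P, frey_a₄_mem A P,
      frey_a₆_mem A P, Or.inr ⟨frey_a₃ P, frey_a₆ P, ?_, ?_⟩⟩
    · exact A.mem_nonunits_iff.mpr (frey_a₄_val_lt_one A P hq hq2 hqA hab)
    · rw [A.mem_nonunits_iff, frey_b₂_val_eq_one A P hq hqA hab]
      exact lt_irrefl _
  · by_cases hc : (q : ℤ) ∣ P.c
    · -- multiplicative, node translated to the origin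
      right
      refine ⟨freyT_a₁_mem A P, freyT_a₂_mem A P hq hq2 hqA, freyT_a₃_mem A P,
        freyT_a₄_mem A P hq hq2 hqA, freyT_a₆_mem A P, Or.inr ⟨freyT_a₃ P, freyT_a₆ P, ?_, ?_⟩⟩
      · exact A.mem_nonunits_iff.mpr (freyT_a₄_val_lt_one A P hq hq2 hqA hc)
      · rw [A.mem_nonunits_iff, freyT_b₂_val_eq_one A P hq hqA hc]
        exact lt_irrefl _
    · -- good reduction
      left
      refine ⟨frey_a₁_mem A P, frey_a₂_mem A P, frey_a₃_mem A P, frey_a₄_mem A P,
        frey_a₆_mem A P, Or.inl (frey_Δ_val_eq_one A P hq hq2 hqA ?_)⟩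
      intro h
      rcases (Nat.prime_iff_prime_int.mp hq).dvd_or_dvd h with h | h
      · exact hab h
      · exact hc h

/-- FR2 (fields): at `p`. -/
theorem frey_localFields_p (P : FreyPackage) (A : ValuationSubring L)
    (hA : A.LiesOverPrime P.p) :
    LocalFields P.freyCurve A ∨ LocalFields (freyTranslate P • P.freyCurve) A :=
  frey_localFields_odd P A P.pp (by have := P.hp5; omega) hA

/-- FR0'. (FR0 is `frey_Δ_ne_zero`.) -/
theorem freyTranslate_Δ_ne_zero (P : FreyPackage) :
    (freyTranslate P • P.freyCurve).Δ ≠ 0 := freyT_Δ_ne_zero P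

end Fermat.Agent.S13.H86
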