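/-
S13, helper86: transport of the local statements ("inertia fixes the line `N`" / "inertia acts
trivially on `V / N`") through a change of variables, and the local input of the Serre assembly
for the Frey curve at every prime, from

* `D0`  : valuation subrings over every prime exist,
* `LC1` : the local dichotomy for curves satisfying the local hypotheses (`LocalFields`),
* `LC2` : trivial action on `N` and on `V / N` when moreover `p` is a unit,
* the landed `Fermat.Agent.S05.frey_fixed` (primes `q ∉ {2, p}`),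
* the Frey local data `frey_localFields_two`, `frey_localFields_p`.
-/
import Fermat.Agent.S13.H86.FreyData
import Fermat.Agent.S05.Main
import Fermat.Agent.S05.H98.VarChangeTorsion

set_option autoImplicit false

namespace Fermat.Agent.S13.H86

open WeierstrassCurve WeierstrassCurve.Affine WeierstrassCurve.Affine.Point Fermat.Agent.S05

/-! ### Transport through a change of variables -/

section Transport

variable {R : Type*} {S : Type*} {K : Type*} [CommRing R] [CommRing S] [Field K]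
  [DecidableEq K] [Algebra R S] [Algebra R K] [Algebra S K] [IsScalarTower R S K]

/-- If `σ` fixes the image of `N` pointwise, it fixes `N` pointwise. -/
theorem fixes_of_map (C₀ : VariableChange R) (W' : Affine R) (n : ℕ)
    (N : Submodule (ZMod n) (Submodule.torsionBy ℤ (W'⁄K).Point n)) (σ : K ≃ₐ[S] K)
    (h : ∀ y ∈ N.map (H98.torsionLinearEquiv C₀ W' n).toLinearMap, σ • y = y) :
    ∀ x ∈ N, σ • x = x := by
  intro x hx
  apply (H98.torsionLinearEquiv C₀ W' n).injective
  rw [H98.torsionLinearEquiv_smul]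
  exact h _ ⟨x, hx, rfl⟩

/-- If `σ` acts trivially modulo the image of `N`, it acts trivially modulo `N`. -/
theorem cofixes_of_map (C₀ : VariableChange R) (W' : Affine R) (n : ℕ)
    (N : Submodule (ZMod n) (Submodule.torsionBy ℤ (W'⁄K).Point n)) (σ : K ≃ₐ[S] K)
    (h : ∀ y : Submodule.torsionBy ℤ ((C₀ • W')⁄K).Point n,
      σ • y - y ∈ N.map (H98.torsionLinearEquiv C₀ W' n).toLinearMap) :
    ∀ x : Submodule.torsionBy ℤ (W'⁄K).Point n, σ • x - x ∈ N := by
  intro x
  obtain ⟨z, hz, hzx⟩ := h (H98.torsionLinearEquiv C₀ W' n x)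
  rw [LinearEquiv.coe_coe, ← H98.torsionLinearEquiv_smul, ← map_sub] at hzx
  rwa [← (H98.torsionLinearEquiv C₀ W' n).injective hzx]

theorem map_ne_bot (C₀ : VariableChange R) (W' : Affine R) (n : ℕ)
    {N : Submodule (ZMod n) (Submodule.torsionBy ℤ (W'⁄K).Point n)} (hN : N ≠ ⊥) :
    N.map (H98.torsionLinearEquiv (K := K) C₀ W' n).toLinearMap ≠ ⊥ := fun h0 =>
  hN (Submodule.map_eq_bot_iff.mp h0)

theorem map_ne_top (C₀ : VariableChange R) (W' : Affine R) (n : ℕ)
    {N : Submodule (ZMod n) (Submodule.torsionBy ℤ (W'⁄K).Point n)} (hN : N ≠ ⊤) :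
    N.map (H98.torsionLinearEquiv (K := K) C₀ W' n).toLinearMap ≠ ⊤ := by
  intro h1
  apply hN
  rw [eq_top_iff] at h1 ⊢
  intro x _
  obtain ⟨y, hy, hxy⟩ := h1 (Submodule.mem_top (x := H98.torsionLinearEquiv C₀ W' n x))
  rwa [← (H98.torsionLinearEquiv C₀ W' n).injective hxy]

end Transport

/-! ### The local input of the Serre assembly for the Frey curve -/

section FreyLocalInput

/-- `ℚ̄` (same as the skeleton's `Qb`). -/
local notation "Qb" => AlgebraicClosure ℚ

/-- The statement of `LC1` (local dichotomy), with the local hypotheses as `LocalFields`. -/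
def LC1Statement (p : ℕ) : Prop :=
  ∀ (W₀ : Affine ℚ), W₀.Δ ≠ 0 → ∀ (A : ValuationSubring Qb), LocalFields W₀ A →
    ∀ (N : Submodule (ZMod p) (Submodule.torsionBy ℤ (W₀⁄Qb).Point p)),
      IsGaloisStable ℚ N → N ≠ ⊥ → N ≠ ⊤ →
      (∀ σ ∈ A.inertiaSubgroupIn ℚ, ∀ x ∈ N, σ • x = x) ∨
      (∀ σ ∈ A.inertiaSubgroupIn ℚ,
        ∀ x : Submodule.torsionBy ℤ (W₀⁄Qb).Point p, σ • x - x ∈ N)

/-- The statement of `LC2` (both trivial when `p` is a unit), with `LocalFields`. -/
def LC2Statement (p : ℕ) : Prop :=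
  ∀ (W₀ : Affine ℚ), W₀.Δ ≠ 0 → ∀ (A : ValuationSubring Qb), LocalFields W₀ A →
    (p : Qb) ∉ A.nonunits →
    ∀ (N : Submodule (ZMod p) (Submodule.torsionBy ℤ (W₀⁄Qb).Point p)),
      IsGaloisStable ℚ N → N ≠ ⊥ → N ≠ ⊤ →
      (∀ σ ∈ A.inertiaSubgroupIn ℚ, ∀ x ∈ N, σ • x = x) ∧
      (∀ σ ∈ A.inertiaSubgroupIn ℚ,
        ∀ x : Submodule.torsionBy ℤ (W₀⁄Qb).Point p, σ • x - x ∈ N)

variable (P : FreyPackage)

/-- At a prime `q ∉ {2, p}`: inertia acts trivially on the whole `p`-torsion (landed S05), hence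
on `N` and on `V / N`, for EVERY valuation subring over `q`. -/
theorem frey_local_both_of_ne {q : ℕ} (hq : q.Prime) (hq2 : q ≠ 2) (hqp : q ≠ P.p)
    (A : ValuationSubring Qb) (hA : A.LiesOverPrime q)
    (N : Submodule (ZMod P.p) (Submodule.torsionBy ℤ (P.freyCurve⁄Qb).Point P.p)) :
    (∀ σ ∈ A.inertiaSubgroupIn ℚ, ∀ x ∈ N, σ • x = x) ∧
    (∀ σ ∈ A.inertiaSubgroupIn ℚ,
      ∀ x : Submodule.torsionBy ℤ (P.freyCurve⁄Qb).Point P.p, σ • x - x ∈ N) := by
  have key : ∀ σ ∈ A.inertiaSubgroupIn ℚ,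
      ∀ x : Submodule.torsionBy ℤ (P.freyCurve⁄Qb).Point P.p, σ • x = x := by
    intro σ hσ x
    apply Subtype.ext
    have hx : P.p • x.1 = 0 := by
      have h := x.2
      rw [Submodule.mem_torsionBy_iff] at h
      rw [← Nat.cast_smul_eq_nsmul ℤ]
      exact h
    exact frey_fixed P hq hq2 hqp A hA σ hσ x.1 hx
  refine ⟨fun σ hσ x _ => key σ hσ x, fun σ hσ x => ?_⟩
  rw [key σ hσ x, sub_self]
  exact N.zero_mem

/-- At `2`: from `LC2` and the Frey local data, inertia acts trivially on `N` and on `V / N`,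
for EVERY valuation subring over `2`. -/
theorem frey_local_both_two (hLC2 : LC2Statement P.p)
    (A : ValuationSubring Qb) (hA : A.LiesOverPrime 2)
    (N : Submodule (ZMod P.p) (Submodule.torsionBy ℤ (P.freyCurve⁄Qb).Point P.p))
    (hN : IsGaloisStable ℚ N) (hN0 : N ≠ ⊥) (hN1 : N ≠ ⊤) :
    (∀ σ ∈ A.inertiaSubgroupIn ℚ, ∀ x ∈ N, σ • x = x) ∧
    (∀ σ ∈ A.inertiaSubgroupIn ℚ,
      ∀ x : Submodule.torsionBy ℤ (P.freyCurve⁄Qb).Point P.p, σ • x - x ∈ N) := by
  refine hLC2 P.freyCurve (frey_Δ_ne_zero P) A (frey_localFields_two P A hA) ?_ N hN hN0 hN1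
  have h2 : A.valuation ((2 : ℕ) : Qb) < 1 := A.mem_nonunits_iff.mp hA
  have hp2 : ¬ 2 ∣ P.p := by
    rw [Nat.prime_dvd_prime_iff_eq Nat.prime_two P.pp]
    have := P.hp5
    omega
  have h1 := val_natCast_eq_one A Nat.prime_two h2 hp2
  rw [A.mem_nonunits_iff, h1]
  exact lt_irrefl _

/-- At `p`: from `LC1`, the Frey local data and the transport through `freyTranslate`, inertia
acts trivially on `N` or on `V / N`, for EVERY valuation subring over `p`. -/
theorem frey_local_dichotomy_p (hLC1 : LC1Statement P.p)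
    (A : ValuationSubring Qb) (hA : A.LiesOverPrime P.p)
    (N : Submodule (ZMod P.p) (Submodule.torsionBy ℤ (P.freyCurve⁄Qb).Point P.p))
    (hN : IsGaloisStable ℚ N) (hN0 : N ≠ ⊥) (hN1 : N ≠ ⊤) :
    (∀ σ ∈ A.inertiaSubgroupIn ℚ, ∀ x ∈ N, σ • x = x) ∨
    (∀ σ ∈ A.inertiaSubgroupIn ℚ,
      ∀ x : Submodule.torsionBy ℤ (P.freyCurve⁄Qb).Point P.p, σ • x - x ∈ N) := by
  rcases frey_localFields_p P A hA with h | h
  · exact hLC1 P.freyCurve (frey_Δ_ne_zero P) A h N hN hN0 hN1
  · have key := hLC1 (freyTranslate P • P.freyCurve) (freyTranslate_Δ_ne_zero P) A h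
      (N.map (H98.torsionLinearEquiv (K := Qb) (freyTranslate P) P.freyCurve P.p).toLinearMap)
      (H98.isGaloisStable_map (S := ℚ) (freyTranslate P) P.freyCurve P.p hN)
      (map_ne_bot (freyTranslate P) P.freyCurve P.p hN0)
      (map_ne_top (freyTranslate P) P.freyCurve P.p hN1)
    rcases key with key | key
    · left
      intro σ hσ
      exact fixes_of_map (freyTranslate P) P.freyCurve P.p N σ (key σ hσ)
    · right
      intro σ hσ
      exact cofixes_of_map (freyTranslate P) P.freyCurve P.p N σ (key σ hσ)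

/-- The complete local input of the Serre assembly for the Frey curve and a Galois-stable line
`N`: above every prime `q ≠ p` there is a valuation subring whose inertia group acts trivially
on `N` and on `V / N`; above `p` there is one whose inertia group acts trivially on `N` or on
`V / N`. -/
theorem frey_local_input
    (hD0 : ∀ q : ℕ, q.Prime → ∃ A : ValuationSubring Qb, A.LiesOverPrime q)
    (hLC1 : LC1Statement P.p) (hLC2 : LC2Statement P.p)
    (N : Submodule (ZMod P.p) (Submodule.torsionBy ℤ (P.freyCurve⁄Qb).Point P.p))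
    (hN : IsGaloisStable ℚ N) (hN0 : N ≠ ⊥) (hN1 : N ≠ ⊤) :
    (∀ q : ℕ, q.Prime → q ≠ P.p → ∃ A : ValuationSubring Qb, A.LiesOverPrime q ∧
      (∀ σ ∈ A.inertiaSubgroupIn ℚ, ∀ x ∈ N, σ • x = x) ∧
      (∀ σ ∈ A.inertiaSubgroupIn ℚ,
        ∀ x : Submodule.torsionBy ℤ (P.freyCurve⁄Qb).Point P.p, σ • x - x ∈ N)) ∧
    (∃ A : ValuationSubring Qb, A.LiesOverPrime P.p ∧
      ((∀ σ ∈ A.inertiaSubgroupIn ℚ, ∀ x ∈ N, σ • x = x) ∨
      (∀ σ ∈ A.inertiaSubgroupIn ℚ,
        ∀ x : Submodule.torsionBy ℤ (P.freyCurve⁄Qb).Point P.p, σ • x - x ∈ N))) := by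
  refine ⟨fun q hq hqp => ?_, ?_⟩
  · obtain ⟨A, hA⟩ := hD0 q hq
    refine ⟨A, hA, ?_⟩
    by_cases hq2 : q = 2
    · subst hq2
      exact frey_local_both_two P hLC2 A hA N hN hN0 hN1
    · exact frey_local_both_of_ne P hq hq2 hqp A hA N
  · obtain ⟨A, hA⟩ := hD0 P.p P.pp
    exact ⟨A, hA, frey_local_dichotomy_p P hLC1 A hA N hN hN0 hN1⟩

end FreyLocalInput

end Fermat.Agent.S13.H86
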