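/-
S13, helper86: the small packages of the second skeleton file.

* TR `dichotomy_transport` : transport of the local dichotomy along a change of variables;
* NS `nonsing_red_of_unit'` : in the multiplicative normal form (`a₃ = a₆ = 0`, `a₄ ∈ 𝔪`,
  `b₂` a unit), an integral point with unit `x`-coordinate has nonsingular reduction, in every
  residue characteristic;
* AL `div_mem_nonunits_of_not_inE0` : an odd-order torsion point outside `E₀` has `a₄ / x ∈ 𝔪`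
  (adapter to `Fermat.Agent.S13.H27.a₄_div_xOf_mem_nonunits`).
-/
import Fermat.Agent.S13.H86.Transport
import Fermat.Agent.S13.H27.Branch

set_option autoImplicit false

namespace Fermat.Agent.S13.H86

open WeierstrassCurve WeierstrassCurve.Affine WeierstrassCurve.Affine.Point Fermat.Agent.S05

/-! ### TR -/

/-- TR: the local dichotomy can be checked after a change of variables. -/
theorem dichotomy_transport (W₀ : Affine ℚ) (C : VariableChange ℚ) (p : ℕ)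
    (I : Set (AlgebraicClosure ℚ ≃ₐ[ℚ] AlgebraicClosure ℚ))
    (h : ∀ N' : Submodule (ZMod p)
        (Submodule.torsionBy ℤ ((C • W₀)⁄(AlgebraicClosure ℚ)).Point p),
      IsGaloisStable ℚ N' → N' ≠ ⊥ → N' ≠ ⊤ →
      (∀ σ ∈ I, ∀ x ∈ N', σ • x = x) ∨
        (∀ σ ∈ I, ∀ x : Submodule.torsionBy ℤ ((C • W₀)⁄(AlgebraicClosure ℚ)).Point p,
          σ • x - x ∈ N'))
    (N : Submodule (ZMod p) (Submodule.torsionBy ℤ (W₀⁄(AlgebraicClosure ℚ)).Point p))
    (hN : IsGaloisStable ℚ N) (hN0 : N ≠ ⊥) (hN1 : N ≠ ⊤) :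
    (∀ σ ∈ I, ∀ x ∈ N, σ • x = x) ∨
      (∀ σ ∈ I, ∀ x : Submodule.torsionBy ℤ (W₀⁄(AlgebraicClosure ℚ)).Point p,
        σ • x - x ∈ N) := by
  rcases h (N.map (H98.torsionLinearEquiv (K := AlgebraicClosure ℚ) C W₀ p).toLinearMap)
    (H98.isGaloisStable_map (S := ℚ) C W₀ p hN) (map_ne_bot C W₀ p hN0)
    (map_ne_top C W₀ p hN1) with key | key
  · left
    intro σ hσ
    exact fixes_of_map C W₀ p N σ (key σ hσ)
  · right
    intro σ hσ
    exact cofixes_of_map C W₀ p N σ (key σ hσ)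

/-! ### NS -/

section NS

variable {L : Type*} [Field L]

/-- On a curve with `a₃ = a₆ = 0` and `a₁, a₂, a₄ ∈ A`, an integral `x` forces an integral `y`. -/
theorem y_mem_of_x_mem' {W : Affine L} (A : ValuationSubring L) (h₃ : W.a₃ = 0) (h₆ : W.a₆ = 0)
    (ha₁ : W.a₁ ∈ A) (ha₂ : W.a₂ ∈ A) (ha₄ : W.a₄ ∈ A) {x y : L} (h : W.Equation x y)
    (hx : x ∈ A) : y ∈ A := by
  rw [Affine.equation_iff, h₃, h₆] at h
  by_contra hy
  have hnot := H63.sq_add_not_mem A hy (mul_mem ha₁ hx)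
    (neg_mem (add_mem (add_mem (pow_mem hx 3) (mul_mem ha₂ (pow_mem hx 2))) (mul_mem ha₄ hx)))
  apply hnot
  have e : y ^ 2 + W.a₁ * x * y + -(x ^ 3 + W.a₂ * x ^ 2 + W.a₄ * x) = 0 := by
    linear_combination h
  rw [e]
  exact A.zero_mem

/-- NS: char-free version of `S05.H9.nonsing_red_of_unit` (`b₂` a unit replaces `v 2 = 1`). -/
theorem nonsing_red_of_unit' {W : Affine L} (A : ValuationSubring L)
    (h₃ : W.a₃ = 0) (h₆ : W.a₆ = 0) (ha₁ : W.a₁ ∈ A) (ha₂ : W.a₂ ∈ A)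
    (ha₄ : W.a₄ ∈ A.nonunits) (hb₂ : W.b₂ ∉ A.nonunits)
    {x y : L} (h : W.Equation x y) (hx : x ∈ A) (hx' : x ∉ A.nonunits) :
    W.a₁ * y - (3 * x ^ 2 + 2 * W.a₂ * x + W.a₄) ∉ A.nonunits ∨
      2 * y + W.a₁ * x + W.a₃ ∉ A.nonunits := by
  by_contra hcon
  rw [not_or, not_not, not_not] at hcon
  obtain ⟨hG, hF⟩ := hcon
  have ha₄A : W.a₄ ∈ A := A.nonunits_subset ha₄
  have hy : y ∈ A := y_mem_of_x_mem' A h₃ h₆ ha₁ ha₂ ha₄A h hx
  have hE := h
  rw [Affine.equation_iff, h₃, h₆] at hE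
  rw [h₃, add_zero] at hF
  -- the key identity
  have key : W.b₂ * x ^ 2 = (2 * y + W.a₁ * x) * ((2 * y + W.a₁ * x) + 4 * y) +
      4 * x * (W.a₁ * y - (3 * x ^ 2 + 2 * W.a₂ * x + W.a₄)) - 8 * x * W.a₄ := by
    simp only [b₂]
    linear_combination (-12 : L) * hE
  have h2A : (2 : L) ∈ A := ofNat_mem A 2
  have h4A : (4 : L) ∈ A := ofNat_mem A 4
  have h8A : (8 : L) ∈ A := ofNat_mem A 8
  have hFA : 2 * y + W.a₁ * x ∈ A := A.nonunits_subset hF
  have hmem : W.b₂ * x ^ 2 ∈ A.nonunits := by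
    rw [key]
    refine H31.nu_sub A (H31.nu_add A ?_ ?_) ?_
    · exact H31.nu_mul_right A hF (add_mem hFA (mul_mem h4A hy))
    · exact H31.nu_mul_left A (mul_mem h4A hx) hG
    · exact H31.nu_mul_left A (mul_mem h8A hx) ha₄
  -- but `b₂ x²` is a unit
  have hb₂A : W.b₂ ∈ A := by
    simp only [b₂]
    exact add_mem (pow_mem ha₁ 2) (mul_mem h4A ha₂)
  have h1 : A.valuation W.b₂ = 1 := (H31.val_one_iff A).mpr ⟨hb₂A, hb₂⟩
  have h2 : A.valuation x = 1 := (H31.val_one_iff A).mpr ⟨hx, hx'⟩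
  rw [A.mem_nonunits_iff, map_mul, map_pow, h1, h2, one_pow, one_mul] at hmem
  exact lt_irrefl _ hmem

end NS

/-! ### AL -/

/-- AL ("0 < α < m"): a torsion point of odd prime order outside `E₀` has `a₄ / x ∈ 𝔪`. -/
theorem div_mem_nonunits_of_not_inE0 {L : Type*} [Field L] [DecidableEq L] {W : Affine L}
    (A : ValuationSubring L) (h₃ : W.a₃ = 0) (h₆ : W.a₆ = 0) (ha₄ : W.a₄ ∈ A.nonunits)
    (hb₂ : W.b₂ ∈ A) {p : ℕ} (hp : p.Prime) (hp2 : p ≠ 2) {P : W.Point} (hpP : p • P = 0)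
    (hP : ¬ S05.H31.InE0 A P) : W.a₄ / S05.xOf P ∈ A.nonunits :=
  (H27.a₄_div_xOf_mem_nonunits A h₃ h₆ ha₄ hb₂ hp hp2 hpP hP).2

end Fermat.Agent.S13.H86
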